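/-
S48 BB-V skeleton, third batch of leaves (architect helper76).
-/
import Fermat.Agent.S48.BB.V.Emb.Conc
import Fermat.Agent.S48.BB.KL.Defs

set_option autoImplicit false

noncomputable section

namespace Fermat.Agent.S48.BB.V

open ModularCurve CongruenceSubgroup IntermediateField Polynomial
open Fermat.Agent.S24 Fermat.Agent.S24.B Fermat.Agent.GAL.Mult Fermat.Agent.S36.Mod
  Fermat.Agent.S18.Vert Fermat.Agent.S18.Descent
open scoped MatrixGroups

/-- FINAL HOME `V/Sep.lean`.  Separation of the residues: `f = uK K M r 1`,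
`b • e0 f = e0 (uK K M r (b 1 1))` (`smul_e0_uK`), `b 1 1 ≠ ± 1` in `ZMod M` and `3 ≤ M` (from
`mem_H1_of_entry`), the expansions are `inc A P` with `P` integral (`uQ_coeff_int`), the residues
are `red A P` (`IntEmb.res_of_eq_inc`) and differ at the coefficient `3 * (M * r)`
(`uQ_one_coeff_three`, `uQ_coeff_three`). -/
theorem exists_res_ne {K : Type*} [Field K] [Algebra ℚ K] [Algebra K Kbar]
    {A : ValuationSubring K} [IsDiscreteValuationRing A] (M r : ℕ) [NeZero M] [NeZero r]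
    (hg : ∀ f : laurentBaseChange K (F1Q M r), IsGood (M * r) A (embLL (W.isLvl_F1Q M r) f))
    (b : SL(2, ℤ)) (hb : b ∈ Gamma0 (M * r)) (hb' : b ∉ H1 M r) :
    ∃ f : laurentBaseChange K (F1Q M r), ∃ (h1 : e0 (W.isLvl_F1Q M r) hg f ∈ V0 (M * r) A)
      (h2 : b • e0 (W.isLvl_F1Q M r) hg f ∈ V0 (M * r) A),
      (phi0 (M * r) A).res ⟨_, h2⟩ ≠ (phi0 (M * r) A).res ⟨_, h1⟩ := by
  sorry

/-- FINAL HOME `V/QuotF1Q.lean`.  From `isQuot_laurentBaseChange`, `W.F1Q_eq_adjoin`, `uQ_coeff_int`,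
`qExpand_jq_coeff_int`. -/
theorem isQuot_F1Q {K : Type*} [Field K] [Algebra ℚ K] (A : ValuationSubring K) (M r : ℕ)
    [NeZero (M * r)] : IsQuot A (laurentBaseChange K (F1Q M r)) := by
  sorry

end Fermat.Agent.S48.BB.V

end
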