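/-
S48 BB-V skeleton of the abstract leaves (architect helper76).  Each theorem = one task; the final
home of each theorem is given in its docstring.  Mathlib only (+ V/Abs/Group.lean).
-/
import Fermat.Agent.S48.BB.V.Abs.Group

set_option autoImplicit false

namespace Fermat.Agent.S48.BB.V

open Polynomial

/-- FINAL HOME `V/Abs/Unique.lean`.  Uniqueness of the extension of a valuation ring from
integrality + "rank one". -/
theorem eq_of_integral {E F : Type*} [Field E] [Field F] [Algebra E F] (V W : ValuationSubring F)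
    (hint : ∀ y ∈ V, ((algebraMap E F).comp (V.comap (algebraMap E F)).subtype).IsIntegralElem y)
    (ϖ : F) (hϖ : ϖ⁻¹ ∉ W) (hunif : ∀ y ∈ V, y⁻¹ ∉ V → ∃ z ∈ V, y = ϖ * z)
    (hWV : V.comap (algebraMap E F) ≤ W.comap (algebraMap E F)) : W = V := by
  sorry

/-- FINAL HOME `V/Abs/Integral.lean`.  A valuation ring stable under a finite Galois group is
integral over its trace on the base field. -/
theorem isIntegralElem_of_stable {F L : Type*} [Field F] [Field L] [Algebra F L]
    (Q : Type*) [Group Q] [Finite Q] [MulSemiringAction Q L] [IsGaloisGroup Q F L]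
    (V : ValuationSubring L) (hst : ∀ g : Q, ∀ y ∈ V, g • y ∈ V) (y : L) (hy : y ∈ V) :
    ((algebraMap F L).comp (V.comap (algebraMap F L)).subtype).IsIntegralElem y := by
  sorry

/-- FINAL HOME `V/Abs/Integral.lean`.  Transitivity of integrality of valuation rings. -/
theorem isIntegralElem_trans {E F L : Type*} [Field E] [Field F] [Field L] [Algebra E F]
    [Algebra F L] [Algebra E L] [IsScalarTower E F L] (V : ValuationSubring L)
    (h1 : ∀ y ∈ V, ((algebraMap F L).comp (V.comap (algebraMap F L)).subtype).IsIntegralElem y)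
    (h2 : ∀ a ∈ V.comap (algebraMap F L), ((algebraMap E F).comp
      ((V.comap (algebraMap F L)).comap (algebraMap E F)).subtype).IsIntegralElem a)
    (y : L) (hy : y ∈ V) :
    ((algebraMap E L).comp (V.comap (algebraMap E L)).subtype).IsIntegralElem y := by
  sorry

/-- FINAL HOME `V/Abs/Trace.lean`.  Dedekind independence of the residue characters: if the
inertia group is trivial there is an element of `V` whose trace has nonzero residue. -/
theorem exists_trace_res_ne_zero {F L : Type*} [Field F] [Field L] [Algebra F L]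
    (Q : Type*) [Group Q] [Finite Q] [MulSemiringAction Q L] [IsGaloisGroup Q F L]
    (V : ValuationSubring L) (hst : ∀ g : Q, ∀ y ∈ V, g • y ∈ V)
    {R : Type*} [CommRing R] [IsDomain R] (res : V →+* R)
    (hsep : ∀ g : Q, g ≠ 1 → ∃ y : V, res ⟨g • (y : L), hst g y y.2⟩ ≠ res y) :
    ∃ y : V, ∃ h : algebraMap F L (Algebra.trace F L (y : L)) ∈ V, res ⟨_, h⟩ ≠ 0 := by
  sorry

/-- FINAL HOME `V/Abs/Trace.lean`.  Nondegeneracy of the trace modulo `ϖ` in a tower. -/
theorem exists_trace_notMem_tower {E F₀ F : Type*} [Field E] [Field F₀] [Field F] [Algebra E F₀]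
    [Algebra F₀ F] [Algebra E F] [IsScalarTower E F₀ F] [FiniteDimensional E F₀]
    [FiniteDimensional F₀ F] (V : ValuationSubring F) (ϖ : F)
    (y₁ : F₀) (hy₁ : algebraMap F₀ F y₁ ∈ V)
    (hy₁' : ¬ ∃ w ∈ V, algebraMap E F (Algebra.trace E F₀ y₁) = ϖ * w)
    (y₂ : F) (hy₂ : y₂ ∈ V) (h0 : Algebra.trace F₀ F y₂ ≠ 0)
    (hu : (algebraMap F₀ F (Algebra.trace F₀ F y₂))⁻¹ ∈ V) :
    ∃ y ∈ V, ¬ ∃ w ∈ V, algebraMap E F (Algebra.trace E F y) = ϖ * w := by
  sorry

open scoped MatrixGroups in
/-- FINAL HOME `V/SL2.lean`. -/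
theorem normalClosure_T : Subgroup.normalClosure {ModularGroup.T} = (⊤ : Subgroup SL(2, ℤ)) := by
  sorry

open scoped MatrixGroups in
/-- FINAL HOME `V/SL2.lean`.  (`k = (b 0 0) ^ 2`.) -/
theorem conj_T_of_mem_Gamma0 (N : ℕ) (b : SL(2, ℤ)) (hb : b ∈ CongruenceSubgroup.Gamma0 N) :
    ∃ k : ℤ, ∃ n ∈ CongruenceSubgroup.Gamma N,
      b * ModularGroup.T * b⁻¹ = ModularGroup.T ^ k * n := by
  sorry

end Fermat.Agent.S48.BB.V
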