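/-
S48 BB-V skeleton, second batch of leaves (architect helper76).  Each theorem/def group = one task;
the final home is given in the docstring.
-/
import Fermat.Agent.S48.BB.V.L0
import Fermat.Agent.S48.BB.KL.Defs
import Fermat.Agent.S48.BB.U.Basic
import Fermat.Agent.S18.Vert.GaussData

set_option autoImplicit false

noncomputable section

namespace Fermat.Agent.S48.BB.V

open ModularCurve CongruenceSubgroup IntermediateField Polynomial
open Fermat.Agent.S24 Fermat.Agent.S24.B Fermat.Agent.GAL.Mult Fermat.Agent.S36.Mod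
  Fermat.Agent.S18.Vert Fermat.Agent.S18.Descent
open scoped MatrixGroups

/-- FINAL HOME `V/Descent.lean`.  Descent of the field of definition. -/
theorem mem_laurentBaseChange_of_coeffMap {L L' : Type*} [Field L] [Field L'] [Algebra ℚ L]
    [Algebra ℚ L'] [Algebra L L'] (F₀ : IntermediateField ℚ (LaurentSeries ℚ))
    (s : LaurentSeries L) (h : coeffMap (algebraMap L L') s ∈ laurentBaseChange L' F₀) :
    s ∈ laurentBaseChange L F₀ := by
  sorry

/-- FINAL HOME `V/Quot.lean`. -/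
theorem isQuot_adjoin {K : Type*} [Field K] (A : ValuationSubring K) (S : Set (LaurentSeries K))
    (hS : ∀ x ∈ S, ∃ P : LaurentSeries A, inc A P = x) :
    IsQuot A (IntermediateField.adjoin K S) := by
  sorry

/-- FINAL HOME `V/Quot.lean`. -/
theorem isQuot_laurentBaseChange {K : Type*} [Field K] [Algebra ℚ K] (A : ValuationSubring K)
    (F₀ : IntermediateField ℚ (LaurentSeries ℚ)) (S : Set (LaurentSeries ℚ))
    (hF : F₀ = IntermediateField.adjoin ℚ S)
    (hS : ∀ x ∈ S, ∀ k : ℤ, algebraMap ℚ K (x.coeff k) ∈ A) :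
    IsQuot A (laurentBaseChange K F₀) := by
  sorry

/-- FINAL HOME `V/Quot.lean`.  A field with `IsQuot` lies in `quotField A`. -/
theorem le_quotField_of_isQuot {K : Type*} [Field K] {A : ValuationSubring K}
    {F : IntermediateField K (LaurentSeries K)} (hq : IsQuot A F) : F ≤ quotField A := by
  sorry

/-- FINAL HOME `V/Abs/Pull.lean`.  Pull back of an action along an injective ring homomorphism
with stable range. -/
def pullAction {Γ L F : Type*} [Group Γ] [Field L] [MulSemiringAction Γ L] [Field F]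
    (e : F →+* L) (h : ∀ (γ : Γ) (f : F), ∃ f' : F, e f' = γ • e f) : MulSemiringAction Γ F := by
  sorry

/-- FINAL HOME `V/Abs/Pull.lean`. -/
theorem map_pullAction_smul {Γ L F : Type*} [Group Γ] [Field L] [MulSemiringAction Γ L] [Field F]
    (e : F →+* L) (h : ∀ (γ : Γ) (f : F), ∃ f' : F, e f' = γ • e f) (γ : Γ) (f : F) :
    e ((pullAction e h).toSMul.smul γ f) = γ • e f := by
  sorry

/-- FINAL HOME `V/GaussData.lean` (+ `V/AnyBase.lean`).  **`GaussData` from integrality over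
`K(j)` and a trace-one element.**  `E₁` is any field mapping into `K(j) ⊆ F`. -/
theorem hasGaussData_of {K : Type*} [Field K] [CharZero K] {A : ValuationSubring K}
    [IsDiscreteValuationRing A] {F : IntermediateField K (LaurentSeries K)}
    (hj : jqModC K ∈ F) (hq : IsQuot A F)
    {E₁ : Type*} [Field E₁] [Algebra E₁ F] [FiniteDimensional E₁ F]
    (hE₁ : ∀ e : E₁, algebraMap E₁ F e ∈ K⟮(⟨jqModC K, hj⟩ : F)⟯)
    (hAE : ∀ a : A, ∃ e : E₁, algebraMap E₁ F e = algebraMap K F (a : K))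
    (hint : ∀ y ∈ gaussVal A F hq, ((algebraMap E₁ F).comp
      ((gaussVal A F hq).comap (algebraMap E₁ F)).subtype).IsIntegralElem y)
    (y₀ : F) (hy₀ : y₀ ∈ gaussVal A F hq) (htr : Algebra.trace E₁ F y₀ = 1) :
    KL.HasGaussData A F hj hq := by
  sorry

/-- FINAL HOME `V/LvlFull.lean`. -/
theorem isLvl_full (N : ℕ) [NeZero N] : IsLvl (modularFunctionFieldFull N) (Gamma0 N) N := by
  sorry

/-- FINAL HOME `V/JBdd.lean`.  The expansions of the translates of `j(dτ)`. -/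
theorem exists_texpLL_smul_PsiL_JF (N d : ℕ) [NeZero N] [NeZero d] (hd : d ∣ N) (γ : SL(2, ℤ)) :
    ∃ (e : ℕ) (_ : NeZero e) (k : ℤ),
      texpLL N (γ • PsiL N (JF N d hd)) = qExpand Kbar e (twist (zetaK N ^ k) (Jser 1)) := by
  sorry

/-- FINAL HOME `V/H1.lean`. -/
theorem Gamma_le_H1 (M r : ℕ) : Gamma (M * r) ≤ H1 M r := by
  sorry

/-- FINAL HOME `V/H1.lean`. -/
theorem H1_le_Gamma0 (M r : ℕ) : H1 M r ≤ Gamma0 (M * r) := inf_le_right

/-- FINAL HOME `V/H1.lean`. -/
theorem conj_mem_H1 (M r : ℕ) (b h : SL(2, ℤ)) (hb : b ∈ Gamma0 (M * r)) (hh : h ∈ H1 M r) :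
    b * h * b⁻¹ ∈ H1 M r := by
  sorry

/-- FINAL HOME `V/H1.lean`. -/
theorem mem_H1_of_entry (M r : ℕ) (b : SL(2, ℤ)) (hb : b ∈ Gamma0 (M * r))
    (h : ((b 0 0 : ℤ) : ZMod M) = 1 ∨ ((b 0 0 : ℤ) : ZMod M) = -1) : b ∈ H1 M r := by
  sorry

/-- FINAL HOME `V/UQ.lean`. -/
theorem uQ_coeff_int (M : ℕ) (a : ZMod M) (k : ℤ) : ∃ z : ℤ, (uQ M a).coeff k = (z : ℚ) := by
  sorry

/-- FINAL HOME `V/UQ.lean`. -/
theorem uQ_one_coeff_three (M : ℕ) (hM : 3 ≤ M) : (uQ M 1).coeff 3 = 1 := by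
  sorry

/-- FINAL HOME `V/UQ.lean`. -/
theorem uQ_coeff_three (M : ℕ) (a : ZMod M) (h1 : a ≠ 1) (h2 : a ≠ -1) :
    (uQ M a).coeff 3 = 0 := by
  sorry

/-- FINAL HOME `V/UQ.lean`. -/
theorem qExpand_jq_coeff_int (d : ℕ) [NeZero d] (k : ℤ) :
    ∃ z : ℤ, (qExpand ℚ d jq).coeff k = (z : ℚ) := by
  sorry

end Fermat.Agent.S48.BB.V

end
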